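import Mathlib
import Fermat.Agent.MUL.Lib.BadRed.Nodal.ToricKeyDef

set_option autoImplicit false

/-!
# Un-normalised derivative on the upper half plane (piece P2 of the S22 plan)

`dH F τ = deriv (F ∘ ofComplex) τ`, together with its basic calculus.
-/

open UpperHalfPlane hiding I
open Complex
open scoped Manifold MatrixGroups ModularForm Topology

namespace Fermat.Agent.S22

noncomputable section

/-- Un-normalised derivative `d/dτ` of a function on the upper half plane. -/
def dH (F : ℍ → ℂ) : ℍ → ℂ := fun τ => deriv (F ∘ ofComplex) (τ : ℂ)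

theorem dH_apply (F : ℍ → ℂ) (τ : ℍ) : dH F τ = deriv (F ∘ ofComplex) (τ : ℂ) := rfl

theorem two_pi_I_ne_zero_S22 : (2 * (Real.pi : ℂ) * I) ≠ 0 := by
  simp [Real.pi_ne_zero, I_ne_zero]

theorem dH_eq_smul_normalizedDeriv (F : ℍ → ℂ) :
    dH F = (2 * (Real.pi : ℂ) * I) • Derivative.normalizedDerivOfComplex F := by
  ext τ
  simp only [dH, Derivative.normalizedDerivOfComplex, Pi.smul_apply, smul_eq_mul]
  rw [← mul_assoc, mul_inv_cancel₀ two_pi_I_ne_zero_S22, one_mul]

theorem normalizedDeriv_eq_smul_dH (F : ℍ → ℂ) :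
    Derivative.normalizedDerivOfComplex F = (2 * (Real.pi : ℂ) * I)⁻¹ • dH F := by
  ext τ
  simp only [dH, Derivative.normalizedDerivOfComplex, Pi.smul_apply, smul_eq_mul]

theorem mdifferentiable_dH {F : ℍ → ℂ} (hF : MDiff F) : MDiff (dH F) := by
  rw [dH_eq_smul_normalizedDeriv]
  exact (Derivative.normalizedDerivOfComplex_mdifferentiable hF).const_smul _

/-- Interface name used by the S22 assembly. -/
theorem mdiff_dH {F : ℍ → ℂ} (hF : MDiff F) : MDiff (dH F) := mdifferentiable_dH hF

theorem hasDerivAt_dH {F : ℍ → ℂ} (hF : MDiff F) (τ : ℍ) :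
    HasDerivAt (F ∘ ofComplex) (dH F τ) (τ : ℂ) :=
  (UpperHalfPlane.mdifferentiableAt_iff.mp (hF τ)).hasDerivAt

theorem dH_add {F G : ℍ → ℂ} (hF : MDiff F) (hG : MDiff G) : dH (F + G) = dH F + dH G := by
  ext τ
  have h := (hasDerivAt_dH hF τ).add (hasDerivAt_dH hG τ)
  exact h.deriv

theorem dH_sub {F G : ℍ → ℂ} (hF : MDiff F) (hG : MDiff G) : dH (F - G) = dH F - dH G := by
  ext τ
  have h := (hasDerivAt_dH hF τ).sub (hasDerivAt_dH hG τ)
  exact h.deriv

theorem dH_smul (c : ℂ) {F : ℍ → ℂ} (hF : MDiff F) : dH (c • F) = c • dH F := by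
  ext τ
  have h := (hasDerivAt_dH hF τ).const_smul c
  exact h.deriv

theorem dH_neg {F : ℍ → ℂ} (hF : MDiff F) : dH (-F) = -dH F := by
  ext τ
  have h := (hasDerivAt_dH hF τ).neg
  exact h.deriv

theorem dH_const (c : ℂ) : dH (fun _ => c) = 0 := by
  ext τ
  change deriv (fun _ : ℂ => c) (τ : ℂ) = 0
  simp

theorem dH_zero : dH (0 : ℍ → ℂ) = 0 := dH_const 0

theorem dH_mul {F G : ℍ → ℂ} (hF : MDiff F) (hG : MDiff G) :
    dH (F * G) = dH F * G + F * dH G := by
  ext τ
  have h := (hasDerivAt_dH hF τ).mul (hasDerivAt_dH hG τ)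
  have h2 := h.deriv
  simp only [Function.comp_apply, ofComplex_apply] at h2
  exact h2

/-- `dH` of a finite sum. -/
theorem dH_finset_sum {ι : Type*} (s : Finset ι) {F : ι → ℍ → ℂ} (hF : ∀ i ∈ s, MDiff (F i)) :
    dH (∑ i ∈ s, F i) = ∑ i ∈ s, dH (F i) := by
  classical
  induction s using Finset.induction_on with
  | empty => simpa using dH_zero
  | insert a s ha ih =>
    have hs : MDiff (∑ i ∈ s, F i) := by
      have : ∀ t : Finset ι, (∀ i ∈ t, MDiff (F i)) → MDiff (∑ i ∈ t, F i) := by
        intro t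
        induction t using Finset.induction_on with
        | empty =>
          intro _
          rw [Finset.sum_empty]
          exact (mdifferentiable_const : MDiff (fun _ : ℍ => (0 : ℂ)))
        | insert b t hb iht =>
          intro h
          rw [Finset.sum_insert hb]
          exact (h b (Finset.mem_insert_self b t)).add
            (iht fun i hi => h i (Finset.mem_insert_of_mem hi))
      exact this s fun i hi => hF i (Finset.mem_insert_of_mem hi)
    rw [Finset.sum_insert ha, Finset.sum_insert ha,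
      dH_add (hF a (Finset.mem_insert_self a s)) hs,
      ih fun i hi => hF i (Finset.mem_insert_of_mem hi)]

/-! ### Iterates -/

theorem mdifferentiable_iterate_dH {F : ℍ → ℂ} (hF : MDiff F) (n : ℕ) : MDiff (dH^[n] F) := by
  induction n with
  | zero => simpa using hF
  | succ n ih =>
    rw [Function.iterate_succ_apply']
    exact mdifferentiable_dH ih

theorem iterate_dH_add {F G : ℍ → ℂ} (hF : MDiff F) (hG : MDiff G) (n : ℕ) :
    dH^[n] (F + G) = dH^[n] F + dH^[n] G := by
  induction n with
  | zero => rfl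
  | succ n ih =>
    rw [Function.iterate_succ_apply', Function.iterate_succ_apply', Function.iterate_succ_apply',
      ih, dH_add (mdifferentiable_iterate_dH hF n) (mdifferentiable_iterate_dH hG n)]

theorem iterate_dH_sub {F G : ℍ → ℂ} (hF : MDiff F) (hG : MDiff G) (n : ℕ) :
    dH^[n] (F - G) = dH^[n] F - dH^[n] G := by
  induction n with
  | zero => rfl
  | succ n ih =>
    rw [Function.iterate_succ_apply', Function.iterate_succ_apply', Function.iterate_succ_apply',
      ih, dH_sub (mdifferentiable_iterate_dH hF n) (mdifferentiable_iterate_dH hG n)]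

theorem iterate_dH_smul (c : ℂ) {F : ℍ → ℂ} (hF : MDiff F) (n : ℕ) :
    dH^[n] (c • F) = c • dH^[n] F := by
  induction n with
  | zero => rfl
  | succ n ih =>
    rw [Function.iterate_succ_apply', Function.iterate_succ_apply', ih,
      dH_smul c (mdifferentiable_iterate_dH hF n)]

theorem iterate_dH_neg {F : ℍ → ℂ} (hF : MDiff F) (n : ℕ) :
    dH^[n] (-F) = -dH^[n] F := by
  induction n with
  | zero => rfl
  | succ n ih =>
    rw [Function.iterate_succ_apply', Function.iterate_succ_apply', ih,
      dH_neg (mdifferentiable_iterate_dH hF n)]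

theorem iterate_dH_zero (n : ℕ) : dH^[n] (0 : ℍ → ℂ) = 0 := by
  induction n with
  | zero => rfl
  | succ n ih => rw [Function.iterate_succ_apply', ih, dH_zero]

theorem iterate_dH_finset_sum {ι : Type*} (s : Finset ι) {F : ι → ℍ → ℂ}
    (hF : ∀ i ∈ s, MDiff (F i)) (n : ℕ) :
    dH^[n] (∑ i ∈ s, F i) = ∑ i ∈ s, dH^[n] (F i) := by
  induction n with
  | zero => rfl
  | succ n ih =>
    rw [Function.iterate_succ_apply', ih,
      dH_finset_sum s fun i hi => mdifferentiable_iterate_dH (hF i hi) n]
    refine Finset.sum_congr rfl fun i _ => ?_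
    rw [Function.iterate_succ_apply']

end

end Fermat.Agent.S22
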