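import Mathlib
import Fermat.Agent.MUL.Orig.S22.Deriv

set_option autoImplicit false

namespace Fermat.Agent.S22

open UpperHalfPlane Polynomial Filter Topology
open scoped Manifold

/-- The open upper half plane as a subset of `ℂ`. -/
def upperSet : Set ℂ := {z : ℂ | 0 < z.im}

theorem isOpen_upperSet : IsOpen upperSet :=
  isOpen_lt continuous_const Complex.continuous_im

theorem convex_upperSet : Convex ℝ upperSet := by
  intro x hx y hy a b ha hb hab
  simp only [upperSet, Set.mem_ofPred_eq] at hx hy ⊢
  simp only [Complex.add_im, Complex.smul_im, smul_eq_mul]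
  rcases eq_or_lt_of_le ha with rfl | ha'
  · simp only [zero_add] at hab
    subst hab
    simpa using hy
  · have h1 : 0 < a * x.im := mul_pos ha' hx
    have h2 : 0 ≤ b * y.im := mul_nonneg hb hy.le
    linarith

theorem isPreconnected_upperSet : IsPreconnected upperSet :=
  convex_upperSet.isPreconnected

theorem coe_mem_upperSet (τ : ℍ) : (τ : ℂ) ∈ upperSet := τ.im_pos

/-- A polynomial antiderivative. -/
theorem exists_polynomial_antiderivative (q : ℂ[X]) :
    ∃ Q : ℂ[X], derivative Q = q ∧ Q.natDegree ≤ q.natDegree + 1 := by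
  classical
  refine ⟨∑ i ∈ Finset.range (q.natDegree + 1),
    C (q.coeff i / ((i : ℂ) + 1)) * X ^ (i + 1), ?_, ?_⟩
  · rw [derivative_sum]
    conv_rhs => rw [q.as_sum_range_C_mul_X_pow]
    refine Finset.sum_congr rfl fun i _ => ?_
    rw [derivative_C_mul_X_pow]
    have hi : ((i : ℂ) + 1) ≠ 0 := by
      have : ((i + 1 : ℕ) : ℂ) ≠ 0 := Nat.cast_ne_zero.mpr (Nat.succ_ne_zero i)
      simpa using this
    simp only [Nat.add_sub_cancel, Nat.cast_add, Nat.cast_one]
    rw [div_mul_cancel₀ _ hi]
  · refine natDegree_sum_le_of_forall_le _ _ fun i hi => ?_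
    refine (natDegree_C_mul_X_pow_le _ _).trans ?_
    have := Finset.mem_range.mp hi
    omega

/-- Core statement on `ℂ`: a chain of `m + 1` successive derivatives on the upper half plane ending
in `0` forces the first function to be a polynomial of degree at most `m` there. -/
theorem exists_poly_of_chain (m : ℕ) :
    ∀ G : ℕ → ℂ → ℂ,
      (∀ n ≤ m, ∀ z ∈ upperSet, HasDerivAt (G n) (G (n + 1) z) z) →
      (∀ z ∈ upperSet, G (m + 1) z = 0) →
      ∃ p : ℂ[X], p.natDegree ≤ m ∧ ∀ z ∈ upperSet, G 0 z = p.eval z := by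
  induction m with
  | zero =>
    intro G hG h0
    have hdiff : DifferentiableOn ℂ (G 0) upperSet := fun z hz =>
      (hG 0 le_rfl z hz).differentiableAt.differentiableWithinAt
    have hderiv : upperSet.EqOn (deriv (G 0)) 0 := fun z hz => by
      rw [(hG 0 le_rfl z hz).deriv]
      simpa using h0 z hz
    obtain ⟨a, ha⟩ := isOpen_upperSet.exists_is_const_of_deriv_eq_zero isPreconnected_upperSet
      hdiff hderiv
    refine ⟨C a, by simp, fun z hz => ?_⟩
    simp [ha z hz]
  | succ m ih =>
    intro G hG h0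
    obtain ⟨q, hqdeg, hq⟩ := ih (fun n => G (n + 1))
      (fun n hn z hz => hG (n + 1) (by omega) z hz) h0
    obtain ⟨Q, hQ, hQdeg⟩ := exists_polynomial_antiderivative q
    have hdiffG : DifferentiableOn ℂ (G 0) upperSet := fun z hz =>
      (hG 0 (Nat.zero_le _) z hz).differentiableAt.differentiableWithinAt
    have hdiffQ : DifferentiableOn ℂ (fun z => Q.eval z) upperSet :=
      Q.differentiable.differentiableOn
    have hderiv : upperSet.EqOn (deriv (G 0)) (deriv fun z => Q.eval z) := fun z hz => by
      rw [(hG 0 (Nat.zero_le _) z hz).deriv, Polynomial.deriv, hQ]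
      exact hq z hz
    obtain ⟨a, ha⟩ := isOpen_upperSet.exists_eq_add_of_deriv_eq isPreconnected_upperSet
      hdiffG hdiffQ hderiv
    refine ⟨Q + C a, ?_, fun z hz => ?_⟩
    · refine (natDegree_add_le _ _).trans ?_
      rw [natDegree_C]
      simp only [zero_le, sup_of_le_left]
      omega
    · rw [ha hz]
      simp

/-- (d) Two polynomials agreeing on the upper half plane are equal. -/
theorem poly_eq_of_eval_eq (p q : ℂ[X]) (h : ∀ τ : ℍ, p.eval (τ : ℂ) = q.eval (τ : ℂ)) : p = q := by
  rw [← sub_eq_zero]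
  apply eq_zero_of_infinite_isRoot
  have hinf : Set.Infinite (Set.range fun n : ℕ => (Complex.I * ((n : ℂ) + 1))) := by
    apply Set.infinite_range_of_injective
    intro a b hab
    have h1 : ((a : ℂ) + 1) = (b : ℂ) + 1 := mul_left_cancel₀ Complex.I_ne_zero hab
    exact_mod_cast add_right_cancel h1
  refine hinf.mono ?_
  rintro _ ⟨n, rfl⟩
  have him : 0 < (Complex.I * ((n : ℂ) + 1)).im := by
    simp only [Complex.mul_im, Complex.I_re, Complex.I_im, Complex.add_re, Complex.natCast_re,
      Complex.one_re, Complex.add_im, Complex.natCast_im, Complex.one_im]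
    positivity
  have := h ⟨_, him⟩
  simp only [Set.mem_ofPred_eq, IsRoot.def, eval_sub]
  rw [sub_eq_zero]
  exact this

/-- (b) A polynomial which tends to `0` at `i∞` is zero. -/
theorem poly_eq_zero_of_isZeroAtImInfty (p : ℂ[X])
    (h : IsZeroAtImInfty (fun τ : ℍ => p.eval (τ : ℂ))) : p = 0 := by
  by_cases hdeg : 0 < degree p
  · exfalso
    have hnorm : Tendsto (fun τ : ℍ => ‖(τ : ℂ)‖) atImInfty atTop := by
      refine tendsto_atTop_mono (fun τ => ?_) (tendsto_comap : Tendsto UpperHalfPlane.im (comap UpperHalfPlane.im atTop) atTop)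
      calc τ.im = (τ : ℂ).im := rfl
        _ ≤ |(τ : ℂ).im| := le_abs_self _
        _ ≤ ‖(τ : ℂ)‖ := Complex.abs_im_le_norm _
    have h1 : Tendsto (fun τ : ℍ => ‖p.eval (τ : ℂ)‖) atImInfty atTop :=
      p.tendsto_norm_atTop hdeg hnorm
    have h2 : Tendsto (fun τ : ℍ => ‖p.eval (τ : ℂ)‖) atImInfty (𝓝 0) := by
      have := (tendsto_zero_iff_norm_tendsto_zero.mp h)
      exact this
    exact not_tendsto_nhds_of_tendsto_atTop h1 0 h2
  · have hC : p = C (p.coeff 0) := eq_C_of_degree_le_zero (le_of_not_gt hdeg)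
    have h2 : Tendsto (fun _ : ℍ => p.coeff 0) atImInfty (𝓝 0) := by
      have : (fun τ : ℍ => p.eval (τ : ℂ)) = fun _ : ℍ => p.coeff 0 := by
        funext τ
        rw [hC]
        simp
      rw [← this]
      exact h
    have h3 : p.coeff 0 = 0 := tendsto_nhds_unique tendsto_const_nhds h2
    rw [hC, h3, C_0]

/-- (c) A polynomial which is periodic on the upper half plane with a nonzero real period is
constant. -/
theorem poly_eq_C_of_periodic (p : ℂ[X]) {h : ℝ} (hh : h ≠ 0)
    (hp : ∀ τ : ℍ, p.eval ((τ : ℂ) + (h : ℂ)) = p.eval (τ : ℂ)) : p = C (p.coeff 0) := by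
  have hcomp : p.comp (X + C (h : ℂ)) = p := by
    apply poly_eq_of_eval_eq
    intro τ
    rw [eval_comp]
    simpa using hp τ
  have hshift : ∀ n : ℕ, ∀ z : ℂ, p.eval (z + n * (h : ℂ)) = p.eval z := by
    intro n
    induction n with
    | zero => intro z; simp
    | succ n ih =>
      intro z
      have h1 : p.eval (z + ((n + 1 : ℕ) : ℂ) * (h : ℂ)) = (p.comp (X + C (h : ℂ))).eval
          (z + (n : ℂ) * (h : ℂ)) := by
        rw [eval_comp]
        simp only [eval_add, eval_X, eval_C]
        congr 1
        push_cast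
        ring
      rw [h1, hcomp, ih]
  have hzero : p - C (p.eval 0) = 0 := by
    apply eq_zero_of_infinite_isRoot
    have hinf : Set.Infinite (Set.range fun n : ℕ => ((n : ℂ) * (h : ℂ))) := by
      apply Set.infinite_range_of_injective
      intro a b hab
      have hh' : (h : ℂ) ≠ 0 := by exact_mod_cast hh
      have h1 : (a : ℂ) = (b : ℂ) := mul_right_cancel₀ hh' hab
      exact_mod_cast h1
    refine hinf.mono ?_
    rintro _ ⟨n, rfl⟩
    have := hshift n 0
    simp only [zero_add] at this
    simp only [Set.mem_ofPred_eq, IsRoot.def, eval_sub, eval_C]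
    rw [this, sub_self]
  have h1 : p = C (p.eval 0) := sub_eq_zero.mp hzero
  have h2 : p.eval 0 = p.coeff 0 := by
    rw [← coeff_zero_eq_eval_zero]
  rw [← h2]
  exact h1

end Fermat.Agent.S22
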