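import Mathlib
import Fermat.Agent.MUL.Lib.BadRed.Nodal.Gluing.Main

set_option autoImplicit false

namespace Fermat.Agent.S22

open Polynomial

/-- The integer polynomial `(aX+b)^j (cX+d)^(m-j)`. -/
noncomputable def monoAct (m : ℕ) (a b c d : ℤ) (j : ℕ) : ℤ[X] :=
  (C a * X + C b) ^ j * (C c * X + C d) ^ (m - j)

/-- The weight `-m` action of the integer matrix `[[a,b],[c,d]]` on complex polynomials (of degree
`≤ m`): `p ↦ (cX+d)^m p((aX+b)/(cX+d))`, written as `∑_j p_j (aX+b)^j (cX+d)^(m-j)`. -/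
noncomputable def polyAct (m : ℕ) (a b c d : ℤ) : ℂ[X] →ₗ[ℂ] ℂ[X] :=
  ∑ j ∈ Finset.range (m + 1),
    (LinearMap.toSpanSingleton ℂ ℂ[X] ((monoAct m a b c d j).map (Int.castRingHom ℂ))) ∘ₗ
      (lcoeff ℂ j)

theorem polyAct_apply (m : ℕ) (a b c d : ℤ) (p : ℂ[X]) :
    polyAct m a b c d p =
      ∑ j ∈ Finset.range (m + 1), p.coeff j • (monoAct m a b c d j).map (Int.castRingHom ℂ) := by
  simp [polyAct, LinearMap.sum_apply]

theorem eval_polyAct (m : ℕ) (a b c d : ℤ) (p : ℂ[X]) (hp : p.natDegree ≤ m) (z : ℂ)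
    (hz : (c : ℂ) * z + d ≠ 0) :
    (polyAct m a b c d p).eval z =
      ((c : ℂ) * z + d) ^ m * p.eval (((a : ℂ) * z + b) / ((c : ℂ) * z + d)) := by
  rw [polyAct_apply, eval_finsetSum]
  conv_rhs => rw [eval_eq_sum_range' (Nat.lt_succ_of_le hp), Finset.mul_sum]
  refine Finset.sum_congr rfl fun j hj => ?_
  have hj' : j ≤ m := Nat.lt_succ_iff.mp (Finset.mem_range.mp hj)
  simp only [monoAct, eval_smul, smul_eq_mul, Polynomial.map_mul, Polynomial.map_pow,
    Polynomial.map_add, Polynomial.map_X, eval_mul, eval_pow, eval_add,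
    eval_X, eq_intCast, Polynomial.map_intCast, eval_intCast]
  have hm : ((c : ℂ) * z + d) ^ m = ((c : ℂ) * z + d) ^ (m - j) * ((c : ℂ) * z + d) ^ j := by
    rw [← pow_add, Nat.sub_add_cancel hj']
  rw [hm, div_pow]
  generalize (c : ℂ) * z + d = w at hz ⊢
  generalize (a : ℂ) * z + b = u
  field_simp

/-- The lattice of integral functionals on polynomials of degree `≤ m`. -/
noncomputable def intFunctionals (m : ℕ) : Submodule ℤ (ℂ[X] →ₗ[ℂ] ℂ) :=
  Submodule.span ℤ (Set.range fun j : Fin (m + 1) => lcoeff ℂ (j : ℕ))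

theorem lcoeff_mem_intFunctionals {m j : ℕ} (hj : j ≤ m) : lcoeff ℂ j ∈ intFunctionals m :=
  Submodule.subset_span ⟨⟨j, Nat.lt_succ_of_le hj⟩, rfl⟩

theorem intFunctionals_fg (m : ℕ) : (intFunctionals m).FG :=
  Submodule.fg_span (Set.finite_range _)

theorem lcoeff_comp_polyAct (m : ℕ) (a b c d : ℤ) (i : ℕ) :
    lcoeff ℂ i ∘ₗ polyAct m a b c d =
      ∑ j ∈ Finset.range (m + 1), ((monoAct m a b c d j).coeff i) • lcoeff ℂ j := by
  ext p
  simp only [LinearMap.coe_comp, Function.comp_apply, lcoeff_apply, polyAct_apply,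
    finsetSum_coeff, coeff_smul, smul_eq_mul, coeff_map, eq_intCast, LinearMap.coe_sum,
    Finset.sum_apply, LinearMap.smul_apply, zsmul_eq_mul]
  simp [mul_comm]

theorem comp_polyAct_mem_intFunctionals (m : ℕ) (a b c d : ℤ) {φ : ℂ[X] →ₗ[ℂ] ℂ}
    (hφ : φ ∈ intFunctionals m) : φ ∘ₗ polyAct m a b c d ∈ intFunctionals m := by
  induction hφ using Submodule.span_induction with
  | mem x hx =>
    obtain ⟨i, rfl⟩ := hx
    rw [lcoeff_comp_polyAct]
    refine Submodule.sum_mem _ fun j hj => Submodule.smul_mem _ _ ?_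
    exact lcoeff_mem_intFunctionals (Nat.lt_succ_iff.mp (Finset.mem_range.mp hj))
  | zero => simp
  | add x y _ _ hx hy =>
    rw [LinearMap.add_comp]
    exact Submodule.add_mem _ hx hy
  | smul n x _ hx =>
    rw [LinearMap.smul_comp]
    exact Submodule.smul_mem _ _ hx

theorem eq_zero_of_intFunctionals {m : ℕ} {p : ℂ[X]} (hp : p.natDegree ≤ m)
    (h : ∀ φ ∈ intFunctionals m, φ p = 0) : p = 0 := by
  ext j
  rcases le_or_gt j m with hj | hj
  · simpa using h _ (lcoeff_mem_intFunctionals hj)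
  · simpa using coeff_eq_zero_of_natDegree_lt (lt_of_le_of_lt hp hj)

end Fermat.Agent.S22
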