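import Mathlib
import Fermat.Prelude.Def_ModularForm_HeckeOperator
import Fermat.Prelude.Thm_ModularForm_mdifferentiable_heckeT
import Fermat.Prelude.Thm_ModularForm_mdifferentiable_heckeU
import Fermat.Agent.MUL.Orig.S22.Bol
import Fermat.Agent.MUL.Lib.FF.RedCore

set_option autoImplicit false

/-!
# Hecke operators and the `(m+1)`-fold derivative (piece (H) of the S22 plan)
-/

open UpperHalfPlane hiding I
open Complex
open scoped Manifold MatrixGroups ModularForm Topology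

namespace Fermat.Agent.S22

noncomputable section

theorem mdiff_heckeT {E : ℍ → ℂ} (hE : MDiff E) (k : ℤ) (p : ℕ) :
    MDiff (ModularForm.heckeT k p E) :=
  ModularForm.mdifferentiable_heckeT hE k p

theorem mdiff_heckeU {E : ℍ → ℂ} (hE : MDiff E) (k : ℤ) (p : ℕ) :
    MDiff (ModularForm.heckeU k p E) :=
  ModularForm.mdifferentiable_heckeU hE k p

theorem val_det_heckeMatrix {p : ℕ} (hp : p ≠ 0) (j : ℕ) :
    (ModularForm.heckeMatrix p j).val.det = (p : ℝ) := by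
  rw [← Matrix.GeneralLinearGroup.val_det_apply]
  exact ModularForm.det_heckeMatrix hp j

theorem val_det_heckeDiagMatrix {p : ℕ} (hp : p ≠ 0) :
    (ModularForm.heckeDiagMatrix p).val.det = (p : ℝ) := by
  rw [← Matrix.GeneralLinearGroup.val_det_apply]
  exact ModularForm.det_heckeDiagMatrix hp

theorem iterate_dH_slash_heckeMatrix (m : ℕ) {p : ℕ} (hp : p ≠ 0) (j : ℕ) {E : ℍ → ℂ}
    (hE : MDiff E) :
    dH^[m + 1] (E ∣[-(m : ℤ)] ModularForm.heckeMatrix p j) =
      (((p : ℂ))⁻¹) ^ (m + 1) • ((dH^[m + 1] E) ∣[(m : ℤ) + 2] ModularForm.heckeMatrix p j) := by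
  have hdet := val_det_heckeMatrix hp j
  have hpos : 0 < (ModularForm.heckeMatrix p j).val.det := by
    rw [hdet]; exact_mod_cast Nat.pos_of_ne_zero hp
  have h := bol m hE hpos
  rw [hdet] at h
  simpa using h

theorem iterate_dH_slash_heckeDiagMatrix (m : ℕ) {p : ℕ} (hp : p ≠ 0) {E : ℍ → ℂ}
    (hE : MDiff E) :
    dH^[m + 1] (E ∣[-(m : ℤ)] ModularForm.heckeDiagMatrix p) =
      (((p : ℂ))⁻¹) ^ (m + 1) • ((dH^[m + 1] E) ∣[(m : ℤ) + 2] ModularForm.heckeDiagMatrix p) := by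
  have hdet := val_det_heckeDiagMatrix hp
  have hpos : 0 < (ModularForm.heckeDiagMatrix p).val.det := by
    rw [hdet]; exact_mod_cast Nat.pos_of_ne_zero hp
  have h := bol m hE hpos
  rw [hdet] at h
  simpa using h

theorem iterate_dH_heckeU_aux (m : ℕ) {p : ℕ} (hp : p ≠ 0) {E : ℍ → ℂ} (hE : MDiff E) :
    dH^[m + 1] (ModularForm.heckeU (-(m : ℤ)) p E) =
      (((p : ℂ))⁻¹) ^ (m + 1) • ModularForm.heckeU ((m : ℤ) + 2) p (dH^[m + 1] E) := by
  rw [ModularForm.heckeU_def, ModularForm.heckeU_def,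
    iterate_dH_finset_sum _ (fun j _ => hE.slash _ _), Finset.smul_sum]
  exact Finset.sum_congr rfl fun j _ => iterate_dH_slash_heckeMatrix m hp j hE

theorem iterate_dH_heckeT_aux (m : ℕ) {p : ℕ} (hp : p ≠ 0) {E : ℍ → ℂ} (hE : MDiff E) :
    dH^[m + 1] (ModularForm.heckeT (-(m : ℤ)) p E) =
      (((p : ℂ))⁻¹) ^ (m + 1) • ModularForm.heckeT ((m : ℤ) + 2) p (dH^[m + 1] E) := by
  rw [ModularForm.heckeT_eq_heckeU_add, ModularForm.heckeT_eq_heckeU_add,
    iterate_dH_add (mdiff_heckeU hE _ _) (hE.slash _ _), iterate_dH_heckeU_aux m hp hE,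
    iterate_dH_slash_heckeDiagMatrix m hp hE, smul_add]

theorem pow_smul_inv_pow_smul_S22 {p : ℕ} (hp : p ≠ 0) (n : ℕ) (F : ℍ → ℂ) :
    ((p : ℂ) ^ n) • ((((p : ℂ))⁻¹) ^ n • F) = F := by
  have hp' : (p : ℂ) ≠ 0 := by exact_mod_cast hp
  rw [smul_smul, ← mul_pow, mul_inv_cancel₀ hp', one_pow, one_smul]

/-- Hecke operators commute with the `(m+1)`-fold derivative, up to the factor `p^(m+1)`. -/
theorem iterate_dH_heckeT (m : ℕ) {p : ℕ} (hp : p ≠ 0) {E : ℍ → ℂ} (hE : MDiff E) :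
    dH^[m + 1] (((p : ℂ) ^ (m + 1)) • ModularForm.heckeT (-(m : ℤ)) p E) =
      ModularForm.heckeT ((m : ℤ) + 2) p (dH^[m + 1] E) := by
  rw [iterate_dH_smul _ (mdiff_heckeT hE _ _), iterate_dH_heckeT_aux m hp hE,
    pow_smul_inv_pow_smul_S22 hp]

theorem iterate_dH_heckeU (m : ℕ) {p : ℕ} (hp : p ≠ 0) {E : ℍ → ℂ} (hE : MDiff E) :
    dH^[m + 1] (((p : ℂ) ^ (m + 1)) • ModularForm.heckeU (-(m : ℤ)) p E) =
      ModularForm.heckeU ((m : ℤ) + 2) p (dH^[m + 1] E) := by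
  rw [iterate_dH_smul _ (mdiff_heckeU hE _ _), iterate_dH_heckeU_aux m hp hE,
    pow_smul_inv_pow_smul_S22 hp]

/-! ### Vanishing at `i∞` -/

theorem heckeMatrix_one_zero (p j : ℕ) : (ModularForm.heckeMatrix p j) 1 0 = 0 := by
  rcases eq_or_ne p 0 with rfl | hp
  · simp
  · have := ModularForm.val_heckeMatrix hp j
    have h2 : (ModularForm.heckeMatrix p j : Matrix (Fin 2) (Fin 2) ℝ) 1 0 = 0 := by
      rw [this]; simp
    exact h2

theorem heckeDiagMatrix_one_zero (p : ℕ) : (ModularForm.heckeDiagMatrix p) 1 0 = 0 := by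
  rcases eq_or_ne p 0 with rfl | hp
  · simp
  · have := ModularForm.val_heckeDiagMatrix hp
    have h2 : (ModularForm.heckeDiagMatrix p : Matrix (Fin 2) (Fin 2) ℝ) 1 0 = 0 := by
      rw [this]; simp
    exact h2

theorem isZeroAtImInfty_finset_sum_S22 {ι : Type*} (s : Finset ι) {F : ι → ℍ → ℂ}
    (hF : ∀ i ∈ s, IsZeroAtImInfty (F i)) : IsZeroAtImInfty (∑ i ∈ s, F i) := by
  classical
  induction s using Finset.induction_on with
  | empty =>
    rw [Finset.sum_empty]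
    exact (tendsto_const_nhds : Filter.Tendsto (fun _ : ℍ => (0 : ℂ)) atImInfty (nhds 0))
  | insert a s ha ih =>
    rw [Finset.sum_insert ha]
    exact (hF a (Finset.mem_insert_self a s)).add
      (ih fun i hi => hF i (Finset.mem_insert_of_mem hi))

theorem isZeroAtImInfty_heckeU {E : ℍ → ℂ} (hE : IsZeroAtImInfty E) (k : ℤ) (p : ℕ) :
    IsZeroAtImInfty (ModularForm.heckeU k p E) := by
  rw [ModularForm.heckeU_def]
  exact isZeroAtImInfty_finset_sum_S22 _ fun j _ => hE.slash k (heckeMatrix_one_zero p j)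

theorem isZeroAtImInfty_heckeT {E : ℍ → ℂ} (hE : IsZeroAtImInfty E) (k : ℤ) (p : ℕ) :
    IsZeroAtImInfty (ModularForm.heckeT k p E) := by
  rw [ModularForm.heckeT_eq_heckeU_add]
  exact (isZeroAtImInfty_heckeU hE k p).add (hE.slash k (heckeDiagMatrix_one_zero p))

end

end Fermat.Agent.S22
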