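import Fermat.Agent.MUL.Orig.S22.Lattice
import Fermat.Agent.MUL.Orig.S22.HeckeDeriv
import Fermat.Prelude.Sol.S_ModularForm_heckeT_slash_eq_self_of_mem_Gamma0
import Fermat.Agent.MUL.Lib.BadRed.Nodal.Deuring2.Main

set_option autoImplicit false
set_option linter.unusedSectionVars false

/-!
# The period lattice is stable under `T_p` (`p ∤ N`)
-/

namespace Fermat.Agent.S22

open UpperHalfPlane Polynomial Matrix.SpecialLinearGroup
open scoped ModularForm MatrixGroups Manifold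
open P2MW.S_ModularForm_heckeT_slash_eq_self_of_mem_Gamma0.ModularForm.HeckeSlashInvariance

section

variable {N : ℕ} [NeZero N] {m : ℕ} {p : ℕ}

local notation "V" => CuspForm (CongruenceSubgroup.Gamma0 N) ((m : ℤ) + 2)

theorem eichler_heckeT (hp : p.Prime) (hpN : ¬ p ∣ N) (f : V) :
    eichler (CuspForm.heckeTLin ((m : ℤ) + 2) hp hpN f) =
      ((p : ℂ) ^ (m + 1)) • ModularForm.heckeT (-(m : ℤ)) p (eichler f) := by
  apply eichler_eq
  · exact (mdiff_heckeT (mdiff_eichler f) _ _).const_smul _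
  · rw [iterate_dH_heckeT m hp.ne_zero (mdiff_eichler f), iterate_dH_eichler]
    rfl
  · exact (isZeroAtImInfty_heckeT (isZeroAtImInfty_eichler f) _ _).smul _

/-- integer entries of the Hecke representatives -/
def entA (p : ℕ) (y : OnePoint (ZMod p)) : ℤ := y.elim (p : ℤ) (fun _ => 1)
def entB (p : ℕ) (y : OnePoint (ZMod p)) : ℤ := y.elim 0 (fun j => (j.val : ℤ))
def entD (p : ℕ) (y : OnePoint (ZMod p)) : ℤ := y.elim 1 (fun _ => (p : ℤ))

theorem val_det_heckeRep (hp : p ≠ 0) (y : OnePoint (ZMod p)) :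
    (heckeRep p y).val.det = (p : ℝ) := by
  induction y using OnePoint.rec with
  | infty => exact val_det_heckeDiagMatrix hp
  | coe j => exact val_det_heckeMatrix hp j.val

theorem slash_poly_heckeRep (hp : p ≠ 0) (y : OnePoint (ZMod p)) {F : ℍ → ℂ} {q : ℂ[X]}
    (hq : q.natDegree ≤ m) (hF : ∀ τ : ℍ, F τ = q.eval (τ : ℂ)) (τ : ℍ) :
    (((p : ℂ) ^ (m + 1)) • (F ∣[-(m : ℤ)] heckeRep p y)) τ =
      (polyAct m (entA p y) (entB p y) 0 (entD p y) q).eval (τ : ℂ) := by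
  have hdet := val_det_heckeRep hp y
  have hpos : 0 < (heckeRep p y).val.det := by
    rw [hdet]
    exact_mod_cast Nat.pos_of_ne_zero hp
  have hp' : (p : ℂ) ≠ 0 := by exact_mod_cast hp
  have key : (F ∣[-(m : ℤ)] heckeRep p y) τ =
      ((((heckeRep p y).val.det : ℝ) : ℂ)⁻¹) ^ (m + 1) *
        (polyAct m (entA p y) (entB p y) 0 (entD p y) q).eval (τ : ℂ) := by
    induction y using OnePoint.rec with
    | infty =>
      refine slash_poly m hpos _ _ _ _ ?_ ?_ ?_ ?_ hq hF τ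
      · simp [heckeRep, entA, ModularForm.val_heckeDiagMatrix hp]
      · simp [heckeRep, entB, ModularForm.val_heckeDiagMatrix hp]
      · simp [heckeRep, ModularForm.val_heckeDiagMatrix hp]
      · simp [heckeRep, entD, ModularForm.val_heckeDiagMatrix hp]
    | coe j =>
      refine slash_poly m hpos _ _ _ _ ?_ ?_ ?_ ?_ hq hF τ
      · simp [heckeRep, entA, ModularForm.val_heckeMatrix hp]
      · simp [heckeRep, entB, ModularForm.val_heckeMatrix hp]
      · simp [heckeRep, ModularForm.val_heckeMatrix hp]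
      · simp [heckeRep, entD, ModularForm.val_heckeMatrix hp]
  rw [Pi.smul_apply, key, hdet, smul_eq_mul, ← mul_assoc]
  have : (p : ℂ) ^ (m + 1) * (((p : ℝ) : ℂ)⁻¹) ^ (m + 1) = 1 := by
    rw [← mul_pow]
    simp [hp']
  rw [this, one_mul]

theorem exists_heckeRep_mul [Fact p.Prime] (hpN : ¬ p ∣ N) (γ : CongruenceSubgroup.Gamma0 N)
    (x : OnePoint (ZMod p)) :
    ∃ γ' : CongruenceSubgroup.Gamma0 N,
      heckeRep p x * mapGL ℝ (γ : SL(2, ℤ)) =
        mapGL ℝ (γ' : SL(2, ℤ)) * heckeRep p (redMatrix p (γ : SL(2, ℤ)) • x) := by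
  have hγ : (N : ℤ) ∣ (γ : SL(2, ℤ)) 1 0 :=
    (ZMod.intCast_zmod_eq_zero_iff_dvd _ _).mp (CongruenceSubgroup.Gamma0_mem.mp γ.2)
  obtain ⟨g', hg', hmul⟩ := heckeRep_mul hpN (γ : SL(2, ℤ)) hγ x
  exact ⟨⟨g', CongruenceSubgroup.Gamma0_mem.mpr
    ((ZMod.intCast_zmod_eq_zero_iff_dvd _ _).mpr hg')⟩, hmul⟩

theorem sigma_eq_self_of_det_pos {g : GL (Fin 2) ℝ} (hg : 0 < g.val.det) (x : ℂ) : σ g x = x := by
  have hdet : g.det.val = g.val.det := Matrix.GeneralLinearGroup.val_det_apply g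
  simp [σ, hdet, hg]

theorem smul_slash_of_det_pos (k : ℤ) {g : GL (Fin 2) ℝ} (hg : 0 < g.val.det) (c : ℂ)
    (F : ℍ → ℂ) : (c • F) ∣[k] g = c • (F ∣[k] g) := by
  rw [ModularForm.smul_slash, sigma_eq_self_of_det_pos hg]

theorem sum_slash_S22 {ι : Type*} (s : Finset ι) (k : ℤ) (g : GL (Fin 2) ℝ) (F : ι → ℍ → ℂ) :
    (∑ i ∈ s, F i) ∣[k] g = ∑ i ∈ s, (F i) ∣[k] g := by
  classical
  induction s using Finset.induction_on with
  | empty => simp
  | insert a s ha ih => rw [Finset.sum_insert ha, Finset.sum_insert ha, SlashAction.add_slash, ih]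

theorem periodFun_heckeT [Fact p.Prime] (hp : p.Prime) (hpN : ¬ p ∣ N)
    (γ : CongruenceSubgroup.Gamma0 N) (f : V) (γ' : OnePoint (ZMod p) → CongruenceSubgroup.Gamma0 N)
    (hγ' : ∀ x, heckeRep p x * mapGL ℝ (γ : SL(2, ℤ)) =
        mapGL ℝ (γ' x : SL(2, ℤ)) * heckeRep p (redMatrix p (γ : SL(2, ℤ)) • x)) :
    periodFun (γ : SL(2, ℤ)) (CuspForm.heckeTLin ((m : ℤ) + 2) hp hpN f) =
      ∑ x : OnePoint (ZMod p), ((p : ℂ) ^ (m + 1)) •
        ((periodFun (γ' x : SL(2, ℤ)) f) ∣[-(m : ℤ)]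
          heckeRep p (redMatrix p (γ : SL(2, ℤ)) • x)) := by
  have hperm : ∑ x : OnePoint (ZMod p),
      (eichler f) ∣[-(m : ℤ)] heckeRep p (redMatrix p (γ : SL(2, ℤ)) • x) =
      ∑ x : OnePoint (ZMod p), (eichler f) ∣[-(m : ℤ)] heckeRep p x :=
    Equiv.sum_comp (MulAction.toPerm (redMatrix p (γ : SL(2, ℤ))))
      (fun x => (eichler f) ∣[-(m : ℤ)] heckeRep p x)
  have hterm : ∀ x : OnePoint (ZMod p),
      ((eichler f) ∣[-(m : ℤ)] heckeRep p x) ∣[-(m : ℤ)] (mapGL ℝ (γ : SL(2, ℤ))) =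
        (periodFun (γ' x : SL(2, ℤ)) f) ∣[-(m : ℤ)] heckeRep p (redMatrix p (γ : SL(2, ℤ)) • x)
          + (eichler f) ∣[-(m : ℤ)] heckeRep p (redMatrix p (γ : SL(2, ℤ)) • x) := by
    intro x
    rw [← SlashAction.slash_mul, hγ' x, SlashAction.slash_mul, ← SlashAction.add_slash]
    congr 1
    simp [periodFun]
  rw [periodFun, eichler_heckeT, smul_slash_of_det_pos _ (det_mapGL_pos_S22 _),
    heckeT_eq_sum_onePoint, sum_slash_S22, ← smul_sub]
  rw [Finset.sum_congr rfl fun x _ => hterm x, Finset.sum_add_distrib, hperm, add_sub_cancel_right,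
    Finset.smul_sum]

theorem periodPolyLin_comp_heckeT [Fact p.Prime] (hp : p.Prime) (hpN : ¬ p ∣ N)
    (γ : CongruenceSubgroup.Gamma0 N) (γ' : OnePoint (ZMod p) → CongruenceSubgroup.Gamma0 N)
    (hγ' : ∀ x, heckeRep p x * mapGL ℝ (γ : SL(2, ℤ)) =
        mapGL ℝ (γ' x : SL(2, ℤ)) * heckeRep p (redMatrix p (γ : SL(2, ℤ)) • x)) :
    periodPolyLin (m := m) γ ∘ₗ (CuspForm.heckeTLin ((m : ℤ) + 2) hp hpN) =
      ∑ x : OnePoint (ZMod p),
        polyAct m (entA p (redMatrix p (γ : SL(2, ℤ)) • x)) (entB p (redMatrix p (γ : SL(2, ℤ)) • x))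
          0 (entD p (redMatrix p (γ : SL(2, ℤ)) • x)) ∘ₗ periodPolyLin (m := m) (γ' x) := by
  ext1 f
  rw [LinearMap.comp_apply, periodPolyLin_apply]
  apply periodPoly_eq
  intro τ
  rw [periodFun_heckeT hp hpN γ f γ' hγ', Finset.sum_apply, LinearMap.sum_apply, eval_finsetSum]
  refine Finset.sum_congr rfl fun x _ => ?_
  rw [LinearMap.comp_apply, periodPolyLin_apply]
  exact slash_poly_heckeRep hp.ne_zero _ (natDegree_periodPoly (γ' x) f)
    (periodFun_eq_eval (γ' x) f) τ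

/-- The period lattice is stable under `T_p`, `p ∤ N`. -/
theorem periodLattice_stable_T (hp : p.Prime) (hpN : ¬ p ∣ N)
    {l : V →ₗ[ℂ] ℂ} (hl : l ∈ periodLattice N m) :
    l ∘ₗ (CuspForm.heckeTLin ((m : ℤ) + 2) hp hpN) ∈ periodLattice N m := by
  haveI : Fact p.Prime := ⟨hp⟩
  refine periodLattice_stable_of_relation _ (fun γ => ?_) hl
  choose γ' hγ' using exists_heckeRep_mul hpN γ
  exact ⟨OnePoint (ZMod p), Finset.univ, γ', _, _, _, _, periodPolyLin_comp_heckeT hp hpN γ γ' hγ'⟩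

end

end Fermat.Agent.S22
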