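import Mathlib
import Fermat.Agent.MUL.F3.EigenChar.Eigenform

set_option autoImplicit false

namespace Fermat.Agent.S22


/-- `SL(2, ℤ)` is finitely generated (by `S` and `T`). -/
theorem fg_SL2Z : Group.FG (Matrix.SpecialLinearGroup (Fin 2) ℤ) := by
  rw [Group.fg_iff]
  refine ⟨{ModularGroup.S, ModularGroup.T}, ?_, Set.toFinite _⟩
  exact SpecialLinearGroup.SL2Z_generators

/-- `Γ₀(N)` is a finitely generated group for `N ≥ 1` (Schreier's lemma). -/
theorem fg_Gamma0 (N : ℕ) [NeZero N] : Group.FG (CongruenceSubgroup.Gamma0 N) := by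
  have : Group.FG (Matrix.SpecialLinearGroup (Fin 2) ℤ) := fg_SL2Z
  exact Subgroup.fg_of_index_ne_zero (CongruenceSubgroup.Gamma0 N)

/-- Subgroup form: `Γ₀(N)` is a finitely generated subgroup of `SL(2, ℤ)`. -/
theorem subgroup_fg_Gamma0 (N : ℕ) [NeZero N] : (CongruenceSubgroup.Gamma0 N).FG :=
  (Group.fg_iff_subgroup_fg _).mp (fg_Gamma0 N)

/-- There is a finite set of generators of `Γ₀(N)` inside `SL(2, ℤ)`. -/
theorem exists_finset_closure_eq_Gamma0 (N : ℕ) [NeZero N] :
    ∃ s : Finset (Matrix.SpecialLinearGroup (Fin 2) ℤ),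
      Subgroup.closure (s : Set (Matrix.SpecialLinearGroup (Fin 2) ℤ)) =
        CongruenceSubgroup.Gamma0 N :=
  subgroup_fg_Gamma0 N

end Fermat.Agent.S22
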