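import Mathlib
import Fermat.Agent.MUL.Orig.S22.Deriv
import Fermat.Agent.MUL.Orig.S22.PolyCore
import Fermat.Agent.MUL.F3.DictC.Invariants

set_option autoImplicit false

namespace Fermat.Agent.S22

open UpperHalfPlane Polynomial Filter Topology
open scoped Manifold

theorem mdiff_iterate_dH {F : ℍ → ℂ} (hF : MDiff F) (n : ℕ) : MDiff (dH^[n] F) := by
  induction n with
  | zero => simpa using hF
  | succ n ih =>
    rw [Function.iterate_succ_apply']
    exact mdiff_dH ih

theorem hasDerivAt_comp_ofComplex_dH {F : ℍ → ℂ} (hF : MDiff F) {z : ℂ} (hz : 0 < z.im) :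
    HasDerivAt (F ∘ ofComplex) ((dH F ∘ ofComplex) z) z := by
  have h1 : DifferentiableAt ℂ (F ∘ ofComplex) z :=
    ((UpperHalfPlane.mdifferentiable_iff.mp hF) z hz).differentiableAt (isOpen_upperHalfPlaneSet.mem_nhds hz)
  have h2 : (dH F ∘ ofComplex) z = deriv (F ∘ ofComplex) z := by
    simp only [Function.comp_apply, dH]
    rw [ofComplex_apply_of_im_pos hz]
  rw [h2]
  exact h1.hasDerivAt

/-- (a) If the `(m+1)`-st iterated derivative of a holomorphic function on `ℍ` vanishes, the
function is a polynomial of degree at most `m`. -/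
theorem exists_poly_of_iterate_dH_eq_zero (m : ℕ) {F : ℍ → ℂ} (hF : MDiff F)
    (h : dH^[m + 1] F = 0) :
    ∃ p : ℂ[X], p.natDegree ≤ m ∧ ∀ τ : ℍ, F τ = p.eval (τ : ℂ) := by
  obtain ⟨p, hp, hpe⟩ := exists_poly_of_chain m (fun n => (dH^[n] F) ∘ ofComplex)
    (fun n _ z hz => by
      have := hasDerivAt_comp_ofComplex_dH (mdiff_iterate_dH hF n) hz
      simpa only [Function.iterate_succ_apply'] using this)
    (fun z _ => by simp [h])
  refine ⟨p, hp, fun τ => ?_⟩
  have := hpe (τ : ℂ) (coe_mem_upperSet τ)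
  simpa using this

end Fermat.Agent.S22
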