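import Mathlib
import Fermat.Prelude.Def_CuspForm_HeckeAlgebra
import Fermat.Agent.MUL.Orig.S22.Deriv
import Fermat.Agent.MUL.Orig.S22.Bol
import Fermat.Agent.MUL.Orig.S22.Poly
import Fermat.Agent.MUL.Orig.S22.PolyCore
import Fermat.Agent.MUL.Orig.S22.PolyAct
import Fermat.Agent.MUL.Orig.Lib.Period.Primitive
import Fermat.Agent.MUL.F3.DictC.InvariantsFrac

set_option autoImplicit false
set_option linter.unusedSectionVars false

/-!
# Eichler integrals of cusp forms on `Γ₀(N)` and their period polynomials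
-/

namespace Fermat.Agent.S22

open UpperHalfPlane Polynomial Matrix.SpecialLinearGroup
open scoped ModularForm MatrixGroups Manifold

/-! ### Eichler integrals: existence and uniqueness -/

theorem dH_eq_of_hasDerivAt {F f : ℍ → ℂ} (h : ∀ τ : ℍ, HasDerivAt (F ∘ ofComplex) (f τ) τ) :
    dH F = f := by
  funext τ
  exact (h τ).deriv

theorem exists_eichler (n : ℕ) {h : ℝ} (hh : 0 < h) {f : ℍ → ℂ} (hf : MDiff f)
    (hper : Function.Periodic (f ∘ ofComplex) h) (hzero : IsZeroAtImInfty f) :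
    ∃ E : ℍ → ℂ, MDiff E ∧ dH^[n] E = f ∧ Function.Periodic (E ∘ ofComplex) h ∧
      IsZeroAtImInfty E := by
  induction n with
  | zero => exact ⟨f, hf, rfl, hper, hzero⟩
  | succ n ih =>
    obtain ⟨E, hE, hdE, hperE, hzE⟩ := ih
    obtain ⟨F, hF, hdF, hperF, hzF⟩ := Fermat.Agent.Period.exists_periodic_primitive hh hE hperE hzE
    refine ⟨F, hF, ?_, hperF, hzF⟩
    rw [Function.iterate_succ_apply, dH_eq_of_hasDerivAt hdF, hdE]

theorem eichler_unique (m : ℕ) {E : ℍ → ℂ} (hE : MDiff E) (hd : dH^[m + 1] E = 0)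
    (hz : IsZeroAtImInfty E) : E = 0 := by
  obtain ⟨p, -, hp⟩ := exists_poly_of_iterate_dH_eq_zero m hE hd
  have hp0 : p = 0 := by
    apply poly_eq_zero_of_isZeroAtImInfty
    have : (fun τ : ℍ => p.eval (τ : ℂ)) = E := by
      funext τ
      exact (hp τ).symm
    rw [this]
    exact hz
  funext τ
  rw [hp τ, hp0]
  simp

theorem eichler_unique' (m : ℕ) {E E' : ℍ → ℂ} (hE : MDiff E) (hE' : MDiff E')
    (hd : dH^[m + 1] E = dH^[m + 1] E') (hz : IsZeroAtImInfty E) (hz' : IsZeroAtImInfty E') :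
    E = E' := by
  have h0 : E - E' = 0 := by
    apply eichler_unique m (hE.sub hE')
    · rw [iterate_dH_sub hE hE', hd, sub_self]
    · have := hz.sub hz'
      rw [sub_zero] at this
      exact this
  exact sub_eq_zero.mp h0

/-! ### The slash action on polynomial functions -/

/-- The weight `-m` slash action by an integral matrix of positive determinant on a polynomial
function of degree `≤ m` is given by `polyAct`, up to the determinant factor. -/
theorem slash_poly (m : ℕ) {g : GL (Fin 2) ℝ} (hg : 0 < g.val.det) (a b c d : ℤ)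
    (h00 : g 0 0 = a) (h01 : g 0 1 = b) (h10 : g 1 0 = c) (h11 : g 1 1 = d)
    {F : ℍ → ℂ} {q : ℂ[X]} (hq : q.natDegree ≤ m) (hF : ∀ τ : ℍ, F τ = q.eval (τ : ℂ)) (τ : ℍ) :
    (F ∣[-(m : ℤ)] g) τ =
      (((g.val.det : ℝ) : ℂ)⁻¹) ^ (m + 1) * (polyAct m a b c d q).eval (τ : ℂ) := by
  have hdet : g.det.val = g.val.det := Matrix.GeneralLinearGroup.val_det_apply g
  have hdet' : (0 : ℝ) < g.det.val := by rw [hdet]; exact hg
  have hσ (x : ℂ) : σ g x = x := by simp [σ, hdet, hg]
  have hden : denom g (τ : ℂ) = (c : ℂ) * τ + d := by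
    simp [denom, h10, h11]
  have hnum : num g (τ : ℂ) = (a : ℂ) * τ + b := by
    simp [num, h00, h01]
  have hz : (c : ℂ) * τ + d ≠ 0 := by
    rw [← hden]
    exact denom_ne_zero g τ
  rw [ModularForm.slash_apply, hσ, hF, coe_smul_of_det_pos hdet', hden, hnum,
    eval_polyAct m a b c d q hq _ hz, hdet, abs_of_pos hg]
  have hdetℂ : ((g.val.det : ℝ) : ℂ) ≠ 0 := Complex.ofReal_ne_zero.mpr hg.ne'
  rw [show (-(m : ℤ) - 1) = -((m + 1 : ℕ) : ℤ) by push_cast; ring, zpow_neg, zpow_natCast,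
    neg_neg, zpow_natCast, inv_pow]
  ring

theorem det_mapGL_S22 (γ : SL(2, ℤ)) : (mapGL ℝ γ : GL (Fin 2) ℝ).val.det = 1 := by
  rw [← Matrix.GeneralLinearGroup.val_det_apply]
  simp

theorem det_mapGL_pos_S22 (γ : SL(2, ℤ)) : 0 < (mapGL ℝ γ : GL (Fin 2) ℝ).val.det := by
  rw [det_mapGL_S22]
  exact one_pos

/-- The action of `γ ∈ SL(2, ℤ)` on polynomials. -/
noncomputable def actSL (m : ℕ) (γ : SL(2, ℤ)) : ℂ[X] →ₗ[ℂ] ℂ[X] :=
  polyAct m (γ 0 0) (γ 0 1) (γ 1 0) (γ 1 1)

theorem slash_poly_SL (m : ℕ) (γ : SL(2, ℤ)) {F : ℍ → ℂ} {q : ℂ[X]} (hq : q.natDegree ≤ m)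
    (hF : ∀ τ : ℍ, F τ = q.eval (τ : ℂ)) (τ : ℍ) :
    (F ∣[-(m : ℤ)] (mapGL ℝ γ)) τ = (actSL m γ q).eval (τ : ℂ) := by
  rw [slash_poly m (det_mapGL_pos_S22 γ) (γ 0 0) (γ 0 1) (γ 1 0) (γ 1 1) (by simp) (by simp)
    (by simp) (by simp) hq hF τ, det_mapGL_S22]
  simp [actSL]

/-! ### The Eichler integral of a cusp form on `Γ₀(N)` -/

section CuspForm

variable {N : ℕ} [NeZero N] {m : ℕ}

local notation "V" => CuspForm (CongruenceSubgroup.Gamma0 N) ((m : ℤ) + 2)

theorem cuspForm_periodic (f : V) : Function.Periodic ((f : ℍ → ℂ) ∘ ofComplex) 1 := by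
  have h1 : (1 : ℝ) ∈ (CongruenceSubgroup.Gamma0 N : Subgroup (GL (Fin 2) ℝ)).strictPeriods := by
    simp [CongruenceSubgroup.strictPeriods_Gamma0]
  exact SlashInvariantFormClass.periodic_comp_ofComplex f h1

theorem exists_eichler_cuspForm (f : V) :
    ∃ E : ℍ → ℂ, MDiff E ∧ dH^[m + 1] E = f ∧ IsZeroAtImInfty E := by
  obtain ⟨E, hE, hd, -, hz⟩ := exists_eichler (m + 1) one_pos (CuspFormClass.holo f)
    (cuspForm_periodic f) (CuspFormClass.zero_at_infty f)
  exact ⟨E, hE, hd, hz⟩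

/-- The canonical Eichler integral of a cusp form. -/
noncomputable def eichler (f : V) : ℍ → ℂ := Classical.choose (exists_eichler_cuspForm f)

theorem mdiff_eichler (f : V) : MDiff (eichler f) :=
  (Classical.choose_spec (exists_eichler_cuspForm f)).1

theorem iterate_dH_eichler (f : V) : dH^[m + 1] (eichler f) = f :=
  (Classical.choose_spec (exists_eichler_cuspForm f)).2.1

theorem isZeroAtImInfty_eichler (f : V) : IsZeroAtImInfty (eichler f) :=
  (Classical.choose_spec (exists_eichler_cuspForm f)).2.2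

theorem eichler_eq {f : V} {E : ℍ → ℂ} (hE : MDiff E) (hd : dH^[m + 1] E = f)
    (hz : IsZeroAtImInfty E) : eichler f = E :=
  eichler_unique' m (mdiff_eichler f) hE ((iterate_dH_eichler f).trans hd.symm)
    (isZeroAtImInfty_eichler f) hz

theorem eichler_add (f g : V) : eichler (f + g) = eichler f + eichler g := by
  apply eichler_eq ((mdiff_eichler f).add (mdiff_eichler g))
  · rw [iterate_dH_add (mdiff_eichler f) (mdiff_eichler g), iterate_dH_eichler,
      iterate_dH_eichler]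
    rfl
  · exact (isZeroAtImInfty_eichler f).add (isZeroAtImInfty_eichler g)

theorem eichler_smul (c : ℂ) (f : V) : eichler (c • f) = c • eichler f := by
  apply eichler_eq ((mdiff_eichler f).const_smul c)
  · rw [iterate_dH_smul c (mdiff_eichler f), iterate_dH_eichler]
    rfl
  · exact (isZeroAtImInfty_eichler f).smul c

/-! ### Period functions and period polynomials -/

/-- The period function `E_f ∣[-m] γ - E_f`. -/
noncomputable def periodFun (γ : SL(2, ℤ)) (f : V) : ℍ → ℂ :=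
  eichler f ∣[-(m : ℤ)] (mapGL ℝ γ) - eichler f

theorem mdiff_periodFun (γ : SL(2, ℤ)) (f : V) : MDiff (periodFun γ f) :=
  ((mdiff_eichler f).slash _ _).sub (mdiff_eichler f)

theorem iterate_dH_periodFun {γ : SL(2, ℤ)} (hγ : γ ∈ CongruenceSubgroup.Gamma0 N) (f : V) :
    dH^[m + 1] (periodFun γ f) = 0 := by
  rw [periodFun, iterate_dH_sub ((mdiff_eichler f).slash _ _) (mdiff_eichler f),
    bol m (mdiff_eichler f) (det_mapGL_pos_S22 γ), iterate_dH_eichler, det_mapGL_S22]
  have : (f : ℍ → ℂ) ∣[(m : ℤ) + 2] (mapGL ℝ γ) = f :=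
    SlashInvariantFormClass.slash_action_eq f _ (Subgroup.mem_map_of_mem (mapGL ℝ) hγ)
  rw [this]
  simp

theorem periodFun_add (γ : SL(2, ℤ)) (f g : V) :
    periodFun γ (f + g) = periodFun γ f + periodFun γ g := by
  simp only [periodFun, eichler_add, SlashAction.add_slash]
  abel

theorem periodFun_smul (γ : SL(2, ℤ)) (c : ℂ) (f : V) :
    periodFun γ (c • f) = c • periodFun γ f := by
  have hσ (x : ℂ) : σ (mapGL ℝ γ : GL (Fin 2) ℝ) x = x := by
    simp [σ]
  simp only [periodFun, eichler_smul, ModularForm.smul_slash, hσ, smul_sub]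

theorem periodFun_one (f : V) : periodFun (1 : SL(2, ℤ)) f = 0 := by
  simp [periodFun]

theorem periodFun_mul (γ δ : SL(2, ℤ)) (f : V) :
    periodFun (γ * δ) f = (periodFun γ f) ∣[-(m : ℤ)] (mapGL ℝ δ) + periodFun δ f := by
  simp only [periodFun, map_mul, SlashAction.slash_mul, sub_eq_add_neg, SlashAction.add_slash,
    SlashAction.neg_slash]
  abel

theorem exists_periodPoly (γ : CongruenceSubgroup.Gamma0 N) (f : V) :
    ∃ p : ℂ[X], p.natDegree ≤ m ∧ ∀ τ : ℍ, periodFun (γ : SL(2, ℤ)) f τ = p.eval (τ : ℂ) :=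
  exists_poly_of_iterate_dH_eq_zero m (mdiff_periodFun _ f) (iterate_dH_periodFun γ.2 f)

/-- The period polynomial of `f` at `γ ∈ Γ₀(N)`. -/
noncomputable def periodPoly (γ : CongruenceSubgroup.Gamma0 N) (f : V) : ℂ[X] :=
  Classical.choose (exists_periodPoly γ f)

theorem natDegree_periodPoly (γ : CongruenceSubgroup.Gamma0 N) (f : V) :
    (periodPoly γ f).natDegree ≤ m :=
  (Classical.choose_spec (exists_periodPoly γ f)).1

theorem periodFun_eq_eval (γ : CongruenceSubgroup.Gamma0 N) (f : V) (τ : ℍ) :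
    periodFun (γ : SL(2, ℤ)) f τ = (periodPoly γ f).eval (τ : ℂ) :=
  (Classical.choose_spec (exists_periodPoly γ f)).2 τ

theorem periodPoly_eq {γ : CongruenceSubgroup.Gamma0 N} {f : V} {p : ℂ[X]}
    (h : ∀ τ : ℍ, periodFun (γ : SL(2, ℤ)) f τ = p.eval (τ : ℂ)) : periodPoly γ f = p :=
  poly_eq_of_eval_eq _ _ fun τ => (periodFun_eq_eval γ f τ).symm.trans (h τ)

/-- The period polynomial as a linear map. -/
noncomputable def periodPolyLin (γ : CongruenceSubgroup.Gamma0 N) : V →ₗ[ℂ] ℂ[X] where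
  toFun f := periodPoly γ f
  map_add' f g := by
    apply periodPoly_eq
    intro τ
    rw [periodFun_add, Pi.add_apply, periodFun_eq_eval, periodFun_eq_eval, eval_add]
  map_smul' c f := by
    apply periodPoly_eq
    intro τ
    rw [periodFun_smul, Pi.smul_apply, periodFun_eq_eval, RingHom.id_apply, eval_smul]

@[simp] theorem periodPolyLin_apply (γ : CongruenceSubgroup.Gamma0 N) (f : V) :
    periodPolyLin γ f = periodPoly γ f := rfl

theorem periodPolyLin_one : periodPolyLin (1 : CongruenceSubgroup.Gamma0 N) (m := m) = 0 := by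
  ext1 f
  rw [periodPolyLin_apply, LinearMap.zero_apply]
  apply periodPoly_eq
  intro τ
  rw [Subgroup.coe_one, periodFun_one]
  simp

theorem periodPolyLin_mul (γ δ : CongruenceSubgroup.Gamma0 N) :
    periodPolyLin (γ * δ) (m := m) =
      actSL m (δ : SL(2, ℤ)) ∘ₗ periodPolyLin γ + periodPolyLin δ := by
  ext1 f
  rw [periodPolyLin_apply, LinearMap.add_apply, LinearMap.comp_apply, periodPolyLin_apply,
    periodPolyLin_apply]
  apply periodPoly_eq
  intro τ
  rw [Subgroup.coe_mul, periodFun_mul, Pi.add_apply, eval_add,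
    slash_poly_SL m (δ : SL(2, ℤ)) (natDegree_periodPoly γ f) (periodFun_eq_eval γ f) τ,
    periodFun_eq_eval δ f τ]

end CuspForm

end Fermat.Agent.S22
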